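import Fermat.Agent.S52L.Loc
import Fermat.Agent.S52I.Gal

/-!
# Assembly of the 3-5 switch
-/

set_option autoImplicit false
set_option linter.unusedSectionVars false

noncomputable section

namespace Fermat.Agent.S52F

open Fermat.Agent.S52L Fermat.Agent.GalRep WeierstrassCurve

local notation "Ω" => AlgebraicClosure ℚ

theorem s52_of (W : WeierstrassCurve ℤ) (hΔ : W.Δ ≠ 0) (hW : W.IsSemistableModel)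
    {a b : Ω} (h4 : C4 a b = (W.Δ : Ω) ^ 8 * W.c₄) (h6 : C6 a b = (W.Δ : Ω) ^ 12 * W.c₆)
    (hD : DD a b = (W.Δ : Ω) ^ 5)
    (hr4 : ∀ x y : ℤ, ∃ r : ℚ, C4 (va a b x y) (vb a b x y) = algebraMap ℚ Ω r)
    (hr6 : ∀ x y : ℤ, ∃ r : ℚ, C6 (va a b x y) (vb a b x y) = algebraMap ℚ Ω r)
    (hrD : ∀ x y : ℤ, ∃ r : ℚ, DD (va a b x y) (vb a b x y) = algebraMap ℚ Ω r)
    (hap : ∀ x y : ℤ, DD (va a b (x : Ω) y) (vb a b (x : Ω) y) ≠ 0 → ∀ W' : WeierstrassCurve ℤ,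
      W'.Δ ≠ 0 → C4 (va a b (x : Ω) y) (vb a b (x : Ω) y) = (W.Δ : Ω) ^ 8 * W'.c₄ →
      C6 (va a b (x : Ω) y) (vb a b (x : Ω) y) = (W.Δ : Ω) ^ 12 * W'.c₆ →
      ∀ ℓ : ℕ, ℓ.Prime → W.IsGoodPrimeFor ℓ → W'.IsGoodPrimeFor ℓ → ℓ ≠ 5 →
        (5 : ℤ) ∣ W'.apOfModel ℓ - W.apOfModel ℓ)
    (hirr : ¬ W.ModRepIsIrreducible 3 → ∀ B : ℤ, B ≠ 0 → ∃ l : ℕ, l.Prime ∧ ¬ (l : ℤ) ∣ B ∧
      ∃ x₁ y₁ : ℤ, ¬ ((l : ℤ) ∣ x₁ ∧ (l : ℤ) ∣ y₁) ∧ ∀ x y : ℤ, (l : ℤ) ∣ x - x₁ → (l : ℤ) ∣ y - y₁ →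
        ∀ W' : WeierstrassCurve ℤ, W'.Δ ≠ 0 → W'.IsSemistableModel →
        C4 (va a b (x : Ω) y) (vb a b (x : Ω) y) = (W.Δ : Ω) ^ 8 * W'.c₄ →
        C6 (va a b (x : Ω) y) (vb a b (x : Ω) y) = (W.Δ : Ω) ^ 12 * W'.c₆ →
        W'.ModRepIsIrreducible 3)
    (crt : ∀ {B : ℤ}, B ≠ 0 → ∀ {l : ℕ}, l.Prime → ¬ (l : ℤ) ∣ B → ∀ {x₁ y₁ : ℤ},
      ¬ ((l : ℤ) ∣ x₁ ∧ (l : ℤ) ∣ y₁) → ∃ x y : ℤ, IsCoprime x y ∧ B ∣ x - 1 ∧ B ∣ y ∧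
        (l : ℤ) ∣ x - x₁ ∧ (l : ℤ) ∣ y - y₁) :
    ∃ W' : WeierstrassCurve ℤ, W'.Δ ≠ 0 ∧ W'.IsSemistableModel ∧ W'.ModRepIsIrreducible 3 ∧
      ∀ ℓ : ℕ, ℓ.Prime → W.IsGoodPrimeFor ℓ → W'.IsGoodPrimeFor ℓ → ℓ ≠ 5 →
        (5 : ℤ) ∣ (W'.apOfModel ℓ - W.apOfModel ℓ) := by
  by_cases h3 : W.ModRepIsIrreducible 3
  · exact ⟨W, hΔ, hW, h3, fun ℓ _ _ _ _ => by simp⟩
  obtain ⟨B, hB0, hB⟩ := exists_model W hΔ hW h4 h6 hD hr4 hr6 hrD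
  obtain ⟨l, hl, hlB, x₁, y₁, hxy, hx⟩ := hirr h3 B hB0
  obtain ⟨x, y, hco, hx1, hy0, hlx, hly⟩ := crt hB0 hl hlB hxy
  obtain ⟨W', hΔ', hW', h4', h6', hD'⟩ := hB x y hco hx1 hy0
  refine ⟨W', hΔ', hW', hx x y hlx hly W' hΔ' hW' h4' h6', hap x y ?_ W' hΔ' h4' h6'⟩
  intro h0
  rw [h0, zero_pow (by norm_num)] at hD'
  have h1 : (W.Δ : Ω) ≠ 0 := by exact_mod_cast hΔ
  have h2 : (W'.Δ : Ω) ≠ 0 := by exact_mod_cast hΔ'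
  exact mul_ne_zero (pow_ne_zero 24 h1) h2 hD'.symm

end Fermat.Agent.S52F
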