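import Fermat.Agent.ImW.NoLine
import Fermat.Agent.ImW.Tame
import Fermat.Agent.CL.Model
import Fermat.Agent.PRem.BLR

/-!
# Reducible `3`-torsion; irreducibility from one Frobenius
-/

set_option autoImplicit false
set_option linter.unusedSectionVars false
set_option linter.style.haveILetI false

open WeierstrassCurve WeierstrassCurve.Affine Module Fermat.Agent Fermat.Agent.CL Fermat.Agent.PRem Fermat.Agent.GalRep
  Fermat.Agent.Places

noncomputable section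

namespace Fermat.Agent.S52F

local notation "Qb" => AlgebraicClosure ℚ

section line

variable {p : ℕ} [hp : Fact p.Prime] {W : WeierstrassCurve ℤ}

/-- A reducible representation has a stable line. -/
theorem exists_line (hΔ : W.Δ ≠ 0) (hp2 : p ≠ 2) (hred : ¬ W.ModRepIsIrreducible p) :
    ∃ v : TE (EQ W) p, v ≠ 0 ∧ ∃ χ : GQ →* ZMod p, ∀ g : GQ, g • v = χ g • v := by
  haveI := isElliptic_EQ hΔ
  have hfr := finrank_TE (E := EQ W) (p := p) hp2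
  haveI : Nontrivial (TE (EQ W) p) := Module.nontrivial_of_finrank_pos (R := ZMod p)
    (by rw [hfr]; norm_num)
  haveI : Finite (TE (EQ W) p) := finite_TE hp2
  haveI : Module.Finite (ZMod p) (TE (EQ W) p) := Module.Finite.of_finite
  have h1 : ∃ N : Submodule (ZMod p) (TE (EQ W) p),
      Affine.Point.IsGaloisStable ℚ N ∧ N ≠ ⊥ ∧ N ≠ ⊤ := by
    by_contra hcon
    push Not at hcon
    exact hred ⟨inferInstance, fun N hN => by
      by_cases h0 : N = ⊥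
      · exact Or.inl h0
      · exact Or.inr (hcon N hN h0)⟩
  obtain ⟨N, hN, hb, ht⟩ := h1
  have h2 : finrank (ZMod p) N = 1 := by
    have h3 : 0 < finrank (ZMod p) N := by
      rw [Module.finrank_pos_iff, Submodule.nontrivial_iff_ne_bot]
      exact hb
    have h4 : finrank (ZMod p) N < 2 := by
      rw [← hfr]
      exact Submodule.finrank_lt ht
    omega
  obtain ⟨v, hv0, hv⟩ := finrank_eq_one_iff'.mp h2
  have hv0' : (v : TE (EQ W) p) ≠ 0 := fun h => hv0 (Subtype.ext h)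
  have h3 : ∀ g : GQ, ∃ c : ZMod p, g • (v : TE (EQ W) p) = c • (v : TE (EQ W) p) := fun g => by
    obtain ⟨c, hc⟩ := hv ⟨g • (v : TE (EQ W) p), hN g v v.2⟩
    exact ⟨c, (congrArg Subtype.val hc).symm⟩
  choose χ hχ using h3
  have hinj : ∀ c c' : ZMod p, c • (v : TE (EQ W) p) = c' • (v : TE (EQ W) p) → c = c' :=
    fun c c' h => smul_left_injective (ZMod p) hv0' h
  refine ⟨v, hv0', ⟨⟨χ, ?_⟩, ?_⟩, hχ⟩
  · apply hinj
    rw [← hχ, one_smul, one_smul]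
  · intro g h
    apply hinj
    change χ (g * h) • (v : TE (EQ W) p) = (χ g * χ h) • (v : TE (EQ W) p)
    rw [← hχ, mul_smul, hχ h, mul_comm, mul_smul, ← hχ g]
    exact (repE (EQ W) p g).map_smul (χ h) v

/-- the Frobenius relation on a stable line -/
theorem frob_line (hΔ : W.Δ ≠ 0) (hp2 : p ≠ 2) {v : TE (EQ W) p} (hv : v ≠ 0)
    {χ : GQ →* ZMod p} (hχ : ∀ g : GQ, g • v = χ g • v) {ℓ : ℕ} (hℓ : ℓ.Prime)
    (hg : W.IsGoodPrimeFor ℓ) (hℓp : ℓ ≠ p) {A : ValuationSubring Qb} (hA : A.LiesOverPrime ℓ)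
    {σ : GQ} (hσ : A.IsFrobeniusAt σ ℓ) :
    χ σ ^ 2 - ((W.apOfModel ℓ : ℤ) : ZMod p) * χ σ + (ℓ : ZMod p) = 0 := by
  haveI := isElliptic_EQ hΔ
  haveI : Fact ℓ.Prime := ⟨hℓ⟩
  have h1 := (frobRel_E (E := EQ W) hp2 (isIntegralModelOf_EQ W) 1).frob ℓ hℓ (by
    simp only [badS, one_mul, Set.mem_ofPred_eq, not_or, not_not]
    exact ⟨fun h => hℓp ((Nat.prime_dvd_prime_iff_eq hℓ hp.out).1 h), hg⟩) A hA σ hσ
  have h2 := LinearMap.congr_fun h1 v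
  have h3 : repE (EQ W) p σ v = χ σ • v := hχ σ
  have h4 : repE (EQ W) p σ (repE (EQ W) p σ v) = (χ σ ^ 2) • v := by
    rw [h3, map_smul, h3, smul_smul, pow_two]
  have h5 : repE (EQ W) p σ (repE (EQ W) p σ v) -
      ((W.apOfModel ℓ : ℤ) : ZMod p) • repE (EQ W) p σ v + (ℓ : ZMod p) • v = 0 := h2
  rw [h4, h3, smul_smul, ← sub_smul, ← add_smul] at h5
  exact (smul_eq_zero.1 h5).resolve_right hv

/-- **Irreducibility from one Frobenius.** -/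
theorem irr_of_frob (hΔ : W.Δ ≠ 0) (hp2 : p ≠ 2) {ℓ : ℕ} (hℓ : ℓ.Prime)
    (hg : W.IsGoodPrimeFor ℓ) (hℓp : ℓ ≠ p)
    (hx : ∀ x : ZMod p, x ^ 2 - ((W.apOfModel ℓ : ℤ) : ZMod p) * x + (ℓ : ZMod p) ≠ 0) :
    W.ModRepIsIrreducible p := by
  by_contra hred
  obtain ⟨v, hv, χ, hχ⟩ := exists_line hΔ hp2 hred
  obtain ⟨A, hA⟩ := Places.exists_liesOverPrime Qb hℓ
  obtain ⟨σ, hσ⟩ := Places.exists_isFrobeniusAt A hℓ hA
  exact hx _ (frob_line hΔ hp2 hv hχ hℓ hg hℓp hA hσ)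

end line

section three

theorem unit3 (χ : GQ →* ZMod 3) (σ : GQ) : χ σ = 1 ∨ χ σ = -1 := by
  have h : χ σ * χ σ⁻¹ = 1 := by rw [← map_mul, mul_inv_cancel, map_one]
  have h2 : ∀ x y : ZMod 3, x * y = 1 → x = 1 ∨ x = -1 := by decide
  exact h2 _ _ h

theorem sq3 : ∀ x : ZMod 3, (x = 1 ∨ x = -1) → x ^ 2 = 1 := by decide

/-- two characters mod `3` unramified outside `3` which agree on one inertia group at `3` -/
theorem eq_of_inertia {χ ψ : GQ →* ZMod 3}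
    (hop : ∃ L : IntermediateField ℚ Qb, FiniteDimensional ℚ L ∧
      ∀ σ : GQ, (∀ x ∈ L, σ x = x) → χ σ = 1 ∧ ψ σ = 1)
    (hun : ∀ q : ℕ, q.Prime → q ≠ 3 → ∀ A : ValuationSubring Qb, A.LiesOverPrime q →
      ∀ σ ∈ A.inertiaSubgroupIn ℚ, χ σ = ψ σ) {B : ValuationSubring Qb} (hB : B.LiesOverPrime 3)
    (h3 : ∀ σ ∈ B.inertiaSubgroupIn ℚ, χ σ = ψ σ) (σ : GQ) : χ σ = ψ σ := by
  have h1 : MonoidHom.eqLocus χ ψ = ⊤ := by
    refine Places.eq_top_of_inertia_le _ ?_ fun q hq A hA τ hτ => ?_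
    · obtain ⟨L, hL, hL'⟩ := hop
      haveI := hL
      refine Subgroup.isOpen_mono (H₁ := L.fixingSubgroup) ?_ L.fixingSubgroup_isOpen
      intro σ hσ
      rw [IntermediateField.mem_fixingSubgroup_iff] at hσ
      change χ σ = ψ σ
      rw [(hL' σ hσ).1, (hL' σ hσ).2]
    · change χ τ = ψ τ
      rcases eq_or_ne q 3 with rfl | hq3
      · obtain ⟨g, hg⟩ := ImW.exists_conj_inertia hq hA hB hτ
        have h2 := h3 _ hg
        have h4 : ∀ φ : GQ →* ZMod 3, φ (g * τ * g⁻¹) = φ τ := fun φ => by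
          rw [map_mul, map_mul, mul_right_comm, ← map_mul, mul_inv_cancel, map_one, one_mul]
        rwa [h4, h4] at h2
      · exact hun q hq hq3 A hA τ hτ
  have h2 : σ ∈ MonoidHom.eqLocus χ ψ := by rw [h1]; exact Subgroup.mem_top σ
  exact h2

/-- characters mod `3` unramified outside `3` -/
theorem char3 (χ : GQ →* ZMod 3)
    (hop : ∃ L : IntermediateField ℚ Qb, FiniteDimensional ℚ L ∧
      ∀ σ : GQ, (∀ x ∈ L, σ x = x) → χ σ = 1)
    (hun : ∀ q : ℕ, q.Prime → q ≠ 3 → ∀ A : ValuationSubring Qb, A.LiesOverPrime q →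
      ∀ σ ∈ A.inertiaSubgroupIn ℚ, χ σ = 1) :
    (∀ σ, χ σ = 1) ∨ (∀ σ, χ σ = cyc 3 σ) := by
  haveI : Fact (Nat.Prime 3) := ⟨Nat.prime_three⟩
  obtain ⟨B, hB⟩ := Places.exists_liesOverPrime Qb Nat.prime_three
  obtain ⟨L₁, hL₁, h₁⟩ := hop
  obtain ⟨L₂, hL₂, h₂⟩ := exists_level_cyc 3
  haveI := hL₁
  haveI := hL₂
  have hL : ∀ σ : GQ, (∀ x ∈ L₁ ⊔ L₂, σ x = x) → χ σ = 1 ∧ cyc 3 σ = 1 := fun σ hσ =>
    ⟨h₁ σ fun x hx => hσ x ((le_sup_left : L₁ ≤ L₁ ⊔ L₂) hx),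
      h₂ σ fun x hx => hσ x ((le_sup_right : L₂ ≤ L₁ ⊔ L₂) hx)⟩
  have hsq : ∀ (φ : GQ →* ZMod 3) (σ : GQ), φ σ ^ 2 = 1 := fun φ σ => by
    exact sq3 _ (unit3 φ σ)
  obtain ⟨σ₀, hσ₀, hgen⟩ := ImW.exists_gen_tame' (v := 3) (A := B) (f := χ.prod (cyc 3))
    ⟨L₁ ⊔ L₂, inferInstance, fun σ hσ => Prod.ext (hL σ hσ).1 (hL σ hσ).2⟩
    (fun σ _ => ⟨2, by norm_num, Prod.ext (hsq χ σ) (hsq (cyc 3) σ)⟩) hB
  obtain ⟨τ, hτ, hτn⟩ := ImW.exists_inertia_nonsq (p := 3) (Or.inl rfl) hB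
  have hc : cyc 3 σ₀ = -1 := by
    rcases unit3 (cyc 3) σ₀ with h | h
    · exfalso
      obtain ⟨n, hn⟩ := hgen τ hτ
      have h3 : cyc 3 τ = cyc 3 σ₀ ^ n := congrArg Prod.snd hn
      rw [h, one_pow] at h3
      exact hτn (h3 ▸ IsSquare.one)
    · exact h
  rcases unit3 χ σ₀ with h | h
  · left
    refine eq_of_inertia (ψ := 1) ⟨L₁, hL₁, fun σ hσ => ⟨h₁ σ hσ, rfl⟩⟩ (fun q hq hq3 A hA σ hσ => by
      rw [hun q hq hq3 A hA σ hσ]; rfl) hB fun σ hσ => ?_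
    obtain ⟨n, hn⟩ := hgen σ hσ
    have h3 : χ σ = χ σ₀ ^ n := congrArg Prod.fst hn
    rw [h3, h, one_pow]
    rfl
  · right
    refine eq_of_inertia (ψ := cyc 3) ⟨L₁ ⊔ L₂, inferInstance, hL⟩ (fun q hq hq3 A hA σ hσ => by
      rw [hun q hq hq3 A hA σ hσ, cyc_inertia ((Nat.coprime_primes hq Nat.prime_three).2 hq3) hA hσ])
      hB fun σ hσ => ?_
    obtain ⟨n, hn⟩ := hgen σ hσ
    have h3 : χ σ = χ σ₀ ^ n := congrArg Prod.fst hn
    have h4 : cyc 3 σ = cyc 3 σ₀ ^ n := congrArg Prod.snd hn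
    rw [h3, h4, h, hc]

variable {W : WeierstrassCurve ℤ}

/-- **(F1)** A semistable curve with reducible `3`-torsion satisfies `a_ℓ ≡ ℓ + 1 mod 3`. -/
theorem ap_of_red (hΔ : W.Δ ≠ 0) (hss : W.IsSemistableModel) (hred : ¬ W.ModRepIsIrreducible 3)
    {ℓ : ℕ} (hℓ : ℓ.Prime) (hg : W.IsGoodPrimeFor ℓ) (hℓ3 : ℓ ≠ 3) :
    (3 : ℤ) ∣ W.apOfModel ℓ - (ℓ + 1) := by
  haveI : Fact (Nat.Prime 3) := ⟨Nat.prime_three⟩
  haveI := isElliptic_EQ hΔ
  have h32 : (3 : ℕ) ≠ 2 := by norm_num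
  obtain ⟨v, hv, χ, hχ⟩ := exists_line (p := 3) hΔ h32 hred
  have hinj : ∀ c c' : ZMod 3, c • v = c' • v → c = c' :=
    fun c c' h => smul_left_injective (ZMod 3) hv h
  obtain ⟨A, hA⟩ := Places.exists_liesOverPrime Qb hℓ
  obtain ⟨σ, hσ⟩ := Places.exists_isFrobeniusAt A hℓ hA
  have hfr := frob_line hΔ h32 hv hχ hℓ hg hℓ3 hA hσ
  have hcy := cyc_frobenius (n := 3) ((Nat.coprime_primes hℓ Nat.prime_three).2 hℓ3) hA hσ
  have hop : ∃ L : IntermediateField ℚ Qb, FiniteDimensional ℚ L ∧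
      ∀ σ : GQ, (∀ x ∈ L, σ x = x) → χ σ = 1 := by
    obtain ⟨L, hL, h1⟩ := level_repE (E := EQ W) (p := 3) h32
    refine ⟨L, hL, fun σ hσ => hinj _ _ ?_⟩
    rw [← hχ, one_smul]
    exact LinearMap.congr_fun (h1 σ hσ) v
  have hun : ∀ q : ℕ, q.Prime → q ≠ 3 → ∀ A : ValuationSubring Qb, A.LiesOverPrime q →
      ∀ σ ∈ A.inertiaSubgroupIn ℚ, χ σ = 1 := by
    intro q hq hq3 A hA σ hσ
    have hP : 3 • (v : ((EQ W)⁄Qb).Point) = 0 := by
      have := (Submodule.mem_torsionBy_iff ((3 : ℕ) : ℤ) (v : ((EQ W)⁄Qb).Point)).mp v.2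
      rwa [natCast_zsmul] at this
    have h1 := unip_model hΔ hq (hss q hq) hA hσ (m := 3) (by decide)
      (fun h => hq3 ((Nat.prime_dvd_prime_iff_eq hq Nat.prime_three).1 h)) hP
    have h2 : σ • σ • v - (2 : ZMod 3) • σ • v + v = 0 := by
      have e : (2 : ZMod 3) • σ • v = 2 • σ • v := natCast_smul_TE 2 (σ • v)
      rw [e]
      exact Subtype.ext h1
    have h4 : σ • σ • v = (χ σ ^ 2) • v := by
      have e : σ • (χ σ • v) = χ σ • σ • v := (repE (EQ W) 3 σ).map_smul (χ σ) v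
      rw [hχ, e, hχ, smul_smul, pow_two]
    rw [h4, hχ, smul_smul, ← sub_smul] at h2
    have h5 : (χ σ ^ 2 - 2 * χ σ + 1) • v = 0 := by
      rw [add_smul, one_smul]
      exact h2
    have h6 := (smul_eq_zero.1 h5).resolve_right hv
    have h7 : (χ σ - 1) ^ 2 = 0 := by linear_combination h6
    exact sub_eq_zero.1 (pow_eq_zero_iff two_ne_zero |>.1 h7)
  have hd : ((W.apOfModel ℓ - (ℓ + 1) : ℤ) : ZMod 3) = 0 := by
    push_cast
    rcases char3 χ hop hun with h | h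
    · rw [h] at hfr
      linear_combination -hfr
    · rw [h, hcy] at hfr
      have hℓ0 : (ℓ : ZMod 3) ≠ 0 := by
        intro h0
        rw [ZMod.natCast_eq_zero_iff] at h0
        exact hℓ3 ((Nat.prime_dvd_prime_iff_eq Nat.prime_three hℓ).1 h0).symm
      apply mul_left_cancel₀ hℓ0
      linear_combination -hfr
  exact (ZMod.intCast_zmod_eq_zero_iff_dvd _ 3).1 hd

end three

end Fermat.Agent.S52F
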