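import Fermat.Agent.S52F.Count
import Fermat.Prelude.Def_FLTPrelim_ModularRep

/-!
# Traces of Frobenius of twists
-/

set_option autoImplicit false

open WeierstrassCurve

namespace Fermat.Agent.S52F

section tr

variable {ℓ : ℕ} [hℓ : Fact ℓ.Prime]

theorem two_ne (h : 5 ≤ ℓ) : (2 : ZMod ℓ) ≠ 0 := by
  intro h0
  have : ((2 : ℕ) : ZMod ℓ) = 0 := by exact_mod_cast h0
  rw [ZMod.natCast_eq_zero_iff] at this
  exact absurd (Nat.le_of_dvd (by norm_num) this) (by omega)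

theorem three_ne (h : 5 ≤ ℓ) : (3 : ZMod ℓ) ≠ 0 := by
  intro h0
  have : ((3 : ℕ) : ZMod ℓ) = 0 := by exact_mod_cast h0
  rw [ZMod.natCast_eq_zero_iff] at this
  exact absurd (Nat.le_of_dvd (by norm_num) this) (by omega)

/-- Twists by squares do not change the trace of Frobenius. -/
theorem trace_eq_of_inv (h : 5 ≤ ℓ) (W W' : WeierstrassCurve (ZMod ℓ)) (hΔ : W.Δ ≠ 0)
    {u : ZMod ℓ} (hu : u ≠ 0) (h4 : W'.c₄ = u ^ 4 * W.c₄) (h6 : W'.c₆ = u ^ 6 * W.c₆) :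
    W'.traceOfFrobenius = W.traceOfFrobenius := by
  classical
  have hd : u ^ 2 ≠ 0 := pow_ne_zero 2 hu
  have h4' : W'.c₄ = (u ^ 2) ^ 2 * W.c₄ := by rw [h4]; ring
  have h6' : W'.c₆ = (u ^ 2) ^ 3 * W.c₆ := by rw [h6]; ring
  have hΔ' : W'.Δ ≠ 0 := by
    rw [Δ_ne_of_inv (two_ne h) (three_ne h) W W' hd h4' h6']
    exact mul_ne_zero (pow_ne_zero _ hd) hΔ
  rw [trace_twist (two_ne h) (three_ne h) W W' hΔ hΔ' hd h4' h6', quadraticChar_sq_one' hu,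
    one_mul]

/-- Twists by nonsquares change the sign of the trace of Frobenius. -/
theorem trace_neg_of_inv (h : 5 ≤ ℓ) (W W' : WeierstrassCurve (ZMod ℓ)) (hΔ : W.Δ ≠ 0)
    {d : ZMod ℓ} (hd : ¬ IsSquare d) (h4 : W'.c₄ = d ^ 2 * W.c₄) (h6 : W'.c₆ = d ^ 3 * W.c₆) :
    W'.traceOfFrobenius = -W.traceOfFrobenius := by
  classical
  have hd0 : d ≠ 0 := by
    rintro rfl
    exact hd ⟨0, by simp⟩
  have hΔ' : W'.Δ ≠ 0 := by
    rw [Δ_ne_of_inv (two_ne h) (three_ne h) W W' hd0 h4 h6]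
    exact mul_ne_zero (pow_ne_zero _ hd0) hΔ
  rw [trace_twist (two_ne h) (three_ne h) W W' hΔ hΔ' hd0 h4 h6,
    quadraticChar_neg_one_iff_not_isSquare.mpr hd]
  ring

theorem good_of_inv (h : 5 ≤ ℓ) {W W' : WeierstrassCurve ℤ} (hg : W.IsGoodPrimeFor ℓ)
    {d : ZMod ℓ} (hd : d ≠ 0) (h4 : (W'.c₄ : ZMod ℓ) = d ^ 2 * (W.c₄ : ZMod ℓ))
    (h6 : (W'.c₆ : ZMod ℓ) = d ^ 3 * (W.c₆ : ZMod ℓ)) : W'.IsGoodPrimeFor ℓ := by
  have e := Δ_ne_of_inv (two_ne h) (three_ne h) (W.reductionMod ℓ) (W'.reductionMod ℓ) hd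
    (by simpa [WeierstrassCurve.reductionMod] using h4)
    (by simpa [WeierstrassCurve.reductionMod] using h6)
  simp only [WeierstrassCurve.reductionMod, WeierstrassCurve.map_Δ, eq_intCast] at e
  intro h0
  rw [← ZMod.intCast_zmod_eq_zero_iff_dvd, e, mul_eq_zero] at h0
  rcases h0 with h0 | h0
  · exact pow_ne_zero _ hd h0
  · exact hg ((ZMod.intCast_zmod_eq_zero_iff_dvd _ _).mp h0)

/-- Integral version of `trace_eq_of_inv`. -/
theorem ap_eq_of_inv (h : 5 ≤ ℓ) {W W' : WeierstrassCurve ℤ} (hg : W.IsGoodPrimeFor ℓ)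
    {u : ZMod ℓ} (hu : u ≠ 0) (h4 : (W'.c₄ : ZMod ℓ) = u ^ 4 * (W.c₄ : ZMod ℓ))
    (h6 : (W'.c₆ : ZMod ℓ) = u ^ 6 * (W.c₆ : ZMod ℓ)) : W'.apOfModel ℓ = W.apOfModel ℓ := by
  refine trace_eq_of_inv h _ _ ?_ hu ?_ ?_
  · simp only [WeierstrassCurve.reductionMod, WeierstrassCurve.map_Δ, eq_intCast]
    exact fun h0 => hg ((ZMod.intCast_zmod_eq_zero_iff_dvd _ _).mp h0)
  · simpa [WeierstrassCurve.reductionMod] using h4
  · simpa [WeierstrassCurve.reductionMod] using h6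

/-- Integral version of `trace_neg_of_inv`. -/
theorem ap_neg_of_inv (h : 5 ≤ ℓ) {W W' : WeierstrassCurve ℤ} (hg : W.IsGoodPrimeFor ℓ)
    {d : ZMod ℓ} (hd : ¬ IsSquare d) (h4 : (W'.c₄ : ZMod ℓ) = d ^ 2 * (W.c₄ : ZMod ℓ))
    (h6 : (W'.c₆ : ZMod ℓ) = d ^ 3 * (W.c₆ : ZMod ℓ)) : W'.apOfModel ℓ = -W.apOfModel ℓ := by
  refine trace_neg_of_inv h _ _ ?_ hd ?_ ?_
  · simp only [WeierstrassCurve.reductionMod, WeierstrassCurve.map_Δ, eq_intCast]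
    exact fun h0 => hg ((ZMod.intCast_zmod_eq_zero_iff_dvd _ _).mp h0)
  · simpa [WeierstrassCurve.reductionMod] using h4
  · simpa [WeierstrassCurve.reductionMod] using h6

end tr

end Fermat.Agent.S52F
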