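import Fermat.Agent.EC.VarChange

/-!
# Point counts over `ZMod ℓ`, `ℓ ≥ 5`, and quadratic twists
-/

set_option autoImplicit false

open WeierstrassCurve

namespace Fermat.Agent.S52F

variable {F : Type*} [Field F]

/-- The short Weierstrass curve attached to `c₄, c₆`. -/
def shortC (A B : F) : WeierstrassCurve F := ⟨0, 0, 0, A, B⟩

theorem vc_short (h2 : (2 : F) ≠ 0) (h3 : (3 : F) ≠ 0) (W : WeierstrassCurve F) :
    EC.VC W (shortC (-27 * W.c₄) (-54 * W.c₆)) (1 / 6) (-W.b₂ / 12) (-W.a₁ / 2)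
      (-(W.a₁ * (-W.b₂ / 12) + W.a₃) / 2) := by
  have h6 : (6 : F) ≠ 0 := by
    have : (6 : F) = 2 * 3 := by norm_num
    rw [this]
    exact mul_ne_zero h2 h3
  have h12 : (12 : F) ≠ 0 := by
    have : (12 : F) = 2 * 6 := by norm_num
    rw [this]
    exact mul_ne_zero h2 h6
  refine ⟨one_div_ne_zero h6, ?_, ?_, ?_, ?_, ?_⟩ <;>
    simp only [shortC, WeierstrassCurve.c₄, WeierstrassCurve.c₆, WeierstrassCurve.b₂,
      WeierstrassCurve.b₄, WeierstrassCurve.b₆] <;>
    field_simp <;> ring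

theorem Δ_shortC (W : WeierstrassCurve F) :
    (shortC (-27 * W.c₄) (-54 * W.c₆)).Δ = 6 ^ 12 * W.Δ := by
  simp only [shortC, WeierstrassCurve.c₄, WeierstrassCurve.c₆, WeierstrassCurve.b₂,
      WeierstrassCurve.b₄, WeierstrassCurve.b₆, WeierstrassCurve.b₈, WeierstrassCurve.Δ]
  ring

/-- The affine points of a curve with `Δ ≠ 0`. -/
noncomputable def ptEquiv (W : WeierstrassCurve F) (hΔ : W.Δ ≠ 0) :
    W.toAffine.Point ≃ Option {q : F × F // W.toAffine.Equation q.1 q.2} where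
  toFun P := match P with
    | 0 => none
    | .some x y e => some ⟨(x, y), e.1⟩
  invFun q := match q with
    | none => 0
    | some q => .some q.1.1 q.1.2
        ((Affine.equation_iff_nonsingular_of_Δ_ne_zero hΔ).mp q.2)
  left_inv := by
    rintro (_ | ⟨x, y, e⟩) <;> rfl
  right_inv := by
    rintro (_ | ⟨q, hq⟩) <;> rfl

variable [Fintype F] [DecidableEq F]

/-- The point count of a short curve. -/
theorem card_short (h2 : ringChar F ≠ 2) (A B : F) (hΔ : (shortC A B).Δ ≠ 0) :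
    ((shortC A B).card : ℤ) =
      Fintype.card F + 1 + ∑ x : F, quadraticChar F (x ^ 3 + A * x + B) := by
  classical
  have e1 : Nat.card (shortC A B).toAffine.Point =
      Nat.card {q : F × F // (shortC A B).toAffine.Equation q.1 q.2} + 1 := by
    rw [Nat.card_congr (ptEquiv _ hΔ), Nat.card_eq_fintype_card, Fintype.card_option,
      Nat.card_eq_fintype_card]
  have e2 : Nat.card {q : F × F // (shortC A B).toAffine.Equation q.1 q.2} =
      ∑ x : F, (({y : F | y ^ 2 = x ^ 3 + A * x + B} : Set F).toFinset).card := by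
    have e3 : ({q : F × F // (shortC A B).toAffine.Equation q.1 q.2}) ≃
        Σ x : F, {y : F // y ^ 2 = x ^ 3 + A * x + B} :=
      { toFun := fun q => ⟨q.1.1, q.1.2, by
          have := (Affine.equation_iff _ _).mp q.2
          simp only [shortC, zero_mul, add_zero] at this
          linear_combination this⟩
        invFun := fun q => ⟨(q.1, q.2.1), by
          rw [Affine.equation_iff]
          have := q.2.2
          simp only [shortC, zero_mul, add_zero]
          linear_combination this⟩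
        left_inv := fun q => rfl
        right_inv := fun q => rfl }
    rw [Nat.card_congr e3, Nat.card_eq_fintype_card, Fintype.card_sigma]
    refine Finset.sum_congr rfl fun x _ => ?_
    rw [Set.toFinset_card]
    exact Fintype.card_congr (Equiv.refl _)
  rw [WeierstrassCurve.card, e1, e2]
  push_cast
  have e4 : ∀ x : F, ((({y : F | y ^ 2 = x ^ 3 + A * x + B} : Set F).toFinset).card : ℤ) =
      quadraticChar F (x ^ 3 + A * x + B) + 1 := fun x => by
    rw [← quadraticChar_card_sqrts h2 (x ^ 3 + A * x + B)]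
  rw [Finset.sum_congr rfl (fun x _ => e4 x), Finset.sum_add_distrib]
  simp only [Finset.sum_const, Finset.card_univ, nsmul_eq_mul, mul_one]
  ring

/-- The trace of Frobenius as a character sum. -/
theorem trace_eq_sum (h2 : (2 : F) ≠ 0) (h3 : (3 : F) ≠ 0) (W : WeierstrassCurve F)
    (hΔ : W.Δ ≠ 0) : W.traceOfFrobenius =
      -∑ x : F, quadraticChar F (x ^ 3 + (-27 * W.c₄) * x + (-54 * W.c₆)) := by
  have h2' : ringChar F ≠ 2 := fun h => h2 (by
    have := ringChar.Nat.cast_ringChar (R := F)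
    rw [h] at this
    exact_mod_cast this)
  have h6 : (6 : F) ≠ 0 := by
    have : (6 : F) = 2 * 3 := by norm_num
    rw [this]
    exact mul_ne_zero h2 h3
  have hΔ' : (shortC (-27 * W.c₄) (-54 * W.c₆)).Δ ≠ 0 := by
    rw [Δ_shortC]
    exact mul_ne_zero (pow_ne_zero _ h6) hΔ
  have hv := vc_short h2 h3 W
  have e1 : W.card = (shortC (-27 * W.c₄) (-54 * W.c₆)).card :=
    (Nat.card_congr (Equiv.ofBijective (hv.pt hΔ)
      ⟨hv.pt_injective hΔ, hv.pt_surjective hΔ hΔ'⟩)).symm
  rw [WeierstrassCurve.traceOfFrobenius, e1, card_short h2' _ _ hΔ', Nat.card_eq_fintype_card]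
  ring

theorem sum_twist (A B d : F) (hd : d ≠ 0) :
    ∑ x : F, quadraticChar F (x ^ 3 + (d ^ 2 * A) * x + d ^ 3 * B) =
      quadraticChar F d * ∑ x : F, quadraticChar F (x ^ 3 + A * x + B) := by
  rw [← Equiv.sum_comp (Equiv.mulLeft₀ d hd), Finset.mul_sum]
  refine Finset.sum_congr rfl fun x _ => ?_
  have e1 : (Equiv.mulLeft₀ d hd x) ^ 3 + (d ^ 2 * A) * (Equiv.mulLeft₀ d hd x) + d ^ 3 * B =
      d * (d ^ 2 * (x ^ 3 + A * x + B)) := by
    have e0 : Equiv.mulLeft₀ d hd x = d * x := rfl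
    rw [e0]
    ring
  rw [e1, map_mul, map_mul]
  have e2 : quadraticChar F (d ^ 2) = 1 := quadraticChar_sq_one' hd
  rw [e2, one_mul]

/-- Twisting by `d` multiplies the trace of Frobenius by the quadratic character of `d`. -/
theorem trace_twist (h2 : (2 : F) ≠ 0) (h3 : (3 : F) ≠ 0) (W W' : WeierstrassCurve F)
    (hΔ : W.Δ ≠ 0) (hΔ' : W'.Δ ≠ 0) {d : F} (hd : d ≠ 0) (h4 : W'.c₄ = d ^ 2 * W.c₄)
    (h6 : W'.c₆ = d ^ 3 * W.c₆) :
    W'.traceOfFrobenius = quadraticChar F d * W.traceOfFrobenius := by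
  rw [trace_eq_sum h2 h3 W hΔ, trace_eq_sum h2 h3 W' hΔ', h4, h6, mul_neg,
    ← sum_twist (-27 * W.c₄) (-54 * W.c₆) d hd]
  congr 1
  refine Finset.sum_congr rfl fun x _ => ?_
  congr 1
  ring

omit [Fintype F] [DecidableEq F] in
theorem Δ_ne_of_inv (h2 : (2 : F) ≠ 0) (h3 : (3 : F) ≠ 0) (W W' : WeierstrassCurve F)
    {d : F} (hd : d ≠ 0) (h4 : W'.c₄ = d ^ 2 * W.c₄) (h6 : W'.c₆ = d ^ 3 * W.c₆) :
    W'.Δ = d ^ 6 * W.Δ := by
  have h1728 : (1728 : F) ≠ 0 := by
    have : (1728 : F) = 2 ^ 6 * 3 ^ 3 := by norm_num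
    rw [this]
    exact mul_ne_zero (pow_ne_zero _ h2) (pow_ne_zero _ h3)
  apply mul_left_cancel₀ h1728
  have e1 := W.c_relation
  have e2 := W'.c_relation
  rw [h4, h6] at e2
  linear_combination e2 - d ^ 6 * e1

end Fermat.Agent.S52F
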